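import Fermat.Agent.S43.GMA.TraceAlg
import Fermat.Agent.S43.GMA.Res
import Fermat.Agent.S43.LocA.QAlg
import Fermat.Agent.S43.LocA.TWAbs
import Fermat.Agent.S43.LocA.TwMat

/-!
# S43 / Top7 / Abs : the abstract-group half of the chain `LevelData → Datum`

`G` any group, `k` a field of characteristic `p`, `V` a finite dimensional `k`-space with a linear action `r` of `G`,
`χ : G →* kˣ`.  From Cayley-Hamilton (`GMA.Central`, `GMA.NilAt`), an irreducible residual representation `rb`, and
operator-level local hypotheses at the strict indices and at the Taylor-Wiles indices, we produce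
`ρ : G →* GL₂(TrAlg)`, `L`, `a b c y` with all the algebraic fields of `Top0.Datum`.
-/

set_option autoImplicit false

open Matrix

namespace Fermat.Agent.S43.Top7

open Fermat.Agent.S43.GMA Fermat.Agent.S43.Exact Fermat.Agent.S43.LocA Fermat.Agent.S43.LocA.QAlg

section Mat

variable {A : Type*} [CommRing A] {L : Type*} [AddCommGroup L] [Module A L]

/-- a vector with entries killed by the entries of `N` is killed by `N`. -/
theorem matAct_eq_zero_of_kill (N : Matrix (Fin 2) (Fin 2) A) (v : Fin 2 → L)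
    (h : ∀ i j j', N i j • v j' = 0) : matAct N v = 0 := by
  funext i
  rw [matAct_apply, h, h, add_zero]
  rfl

/-- entries of `matAct X v` are killed by whatever kills the entries of `v`. -/
theorem smul_matAct_eq_zero (z : A) (X : Matrix (Fin 2) (Fin 2) A) (v : Fin 2 → L)
    (h : ∀ j, z • v j = 0) (i : Fin 2) : z • matAct X v i = 0 := by
  rw [matAct_apply, smul_add, smul_comm, h, smul_comm, h, smul_zero, smul_zero, add_zero]

theorem matAct_sum {ι : Type*} (s : Finset ι) (f : ι → Matrix (Fin 2) (Fin 2) A) (v : Fin 2 → L) :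
    matAct (∑ i ∈ s, f i) v = ∑ i ∈ s, matAct (f i) v := by
  classical
  induction s using Finset.induction_on with
  | empty => simp [matAct_zero]
  | insert a s ha ih => rw [Finset.sum_insert ha, Finset.sum_insert ha, matAct_add, ih]

end Mat

variable {k : Type*} [Field k] {V : Type*} [AddCommGroup V] [Module k V] {G : Type*} [Group G]

/-- **The abstract chain.** -/
theorem chain_abs (p : ℕ) [Fact p.Prime] [CharP k p] (h2 : (2 : k) ≠ 0)
    [FiniteDimensional k V] [Nontrivial V]
    (r : G →* Module.End k V) (χ : G →* kˣ) (H : Central r χ) (τ : G → k) (hN : NilAt r χ τ)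
    (rb : G →* GL (Fin 2) k) (htr : ∀ g, (rb g).1.trace = τ g) (hdet : ∀ g, (rb g).1.det = χ g)
    (hirr : ∀ U : Submodule k (Fin 2 → k), (∀ g, ∀ u ∈ U, (rb g).1 *ᵥ u ∈ U) → U = ⊥ ∨ U = ⊤)
    (c : G) (hc : c * c = 1) (hχc : χ c = -1)
    -- strict indices
    {ι : Type*} (sg : ι → G) (D : ι → Set G)
    (hs1 : ∀ q v, r (sg q) (r (sg q) v) - r (sg q) v - r (sg q) v + v = 0)
    (hs2 : ∀ q, χ (sg q) = 1) (hs3 : ∀ q, rb (sg q) = 1)
    (hs4 : ∀ q, ∀ g ∈ D q, ∃ (h : G) (e : k), ∀ v, r (sg q) v = v → r (h⁻¹ * g * h) v = e • v)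
    -- Taylor-Wiles indices
    {n₀ : ℕ} (st ph : Fin n₀ → G) (s ex m : Fin n₀ → ℕ)
    (ht1 : ∀ i, r (ph i) * r (st i) = r (st i) ^ (s i) * r (ph i))
    (ht2 : ∀ i, χ (st i) = 1) (ht3 : ∀ i, rb (st i) = 1)
    (ht4 : ∀ i, ∃ α β : k, τ (ph i) = α + β ∧ (χ (ph i) : k) = α * β ∧ α ≠ β)
    (ht5 : ∀ i, s i - 1 = p ^ ex i * m i) (ht6 : ∀ i, ¬ p ∣ m i) (ht7 : ∀ i, 0 < s i)
    (ht8 : ∀ i, (s i : k) = 1) :
    ∃ (ρ : G →* GL (Fin 2) (TrAlg H)) (L : Submodule (TrAlg H) V)
      (Φ : V ≃ₗ[TrAlg H] (Fin 2 → L)) (a b c : ι → TrAlg H) (y : Fin n₀ → TrAlg H),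
      (∀ g w, Φ (r g w) = matAct (ρ g).1 (Φ w)) ∧
      (∀ g, (ρ g).1.map (res H hN) = (rb g).1) ∧
      (∀ g, (ρ g).1.trace = tA H g) ∧
      (∀ g, (ρ g).1.det = algebraMap k (TrAlg H) (χ g)) ∧
      (∀ z : TrAlg H, (∀ l : L, z • l = 0) → z = 0) ∧
      (∀ g g', r g = r g' → ρ g = ρ g') ∧
      (∀ q, a q ∈ RingHom.ker (res H hN) ∧ b q ∈ RingHom.ker (res H hN) ∧
        c q ∈ RingHom.ker (res H hN)) ∧
      (∀ q, a q ^ 2 + b q * c q = 0) ∧
      (∀ q, ∀ g ∈ D q, ∀ l : L, a q • l = 0 → b q • l = 0 → c q • l = 0 →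
        (ρ g).1 0 1 • l = 0 ∧ (ρ g).1 1 0 • l = 0 ∧ ((ρ g).1 0 0 - (ρ g).1 1 1) • l = 0) ∧
      (∀ i, y i ∈ RingHom.ker (res H hN)) ∧
      (∀ i, y i ^ (p ^ ex i) = 0) ∧
      (∀ i (v : V), r (st i) v = v ↔ ∀ j, y i • Φ v j = 0) ∧
      (∀ i (v : V), ∃ w : Fin 2 → L,
        Φ ((∑ j ∈ Finset.range (p ^ ex i), r (st i) ^ j) v) = y i ^ (p ^ ex i - 1) • w) := by
  classical
  have : IsLocalRing (TrAlg H) := isLocalRing H hN
  have : CharP (TrAlg H) p := charP_of_injective_algebraMap (algebraMap k (TrAlg H)).injective p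
  have hmax := maximalIdeal_eq_ker H hN
  have hnilm : ∀ x ∈ IsLocalRing.maximalIdeal (TrAlg H), IsNilpotent x := by
    intro x hx
    rw [mem_maximalIdeal_iff H hN, res_eq_zero_iff] at hx
    exact hx
  obtain ⟨ρ, L, Φ, hΦ, hρres, hρtr, hρdet, hL, hρeq⟩ :=
    Res.gma_res h2 (res H hN) (fun a ha => (isUnit_iff H hN a).2 ha) (TrAlg.faithful H)
      (rA H) (epsA H) c (tA H) hc
      (by
        apply Units.ext
        rw [coe_epsA, hχc]
        simp)
      (rA_add H) rb (fun g => by rw [htr, res_tA])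
      (fun g => by rw [hdet, coe_epsA, AlgHom.commutes]; rfl) hirr
  -- matrix valued version
  let ρm : G →* Matrix (Fin 2) (Fin 2) (TrAlg H) := (Units.coeHom _).comp ρ
  have hρm : ∀ g, ρm g = (ρ g).1 := fun _ => rfl
  have hΦ' : ∀ g w, Φ (rA H g w) = matAct (ρm g) (Φ w) := hΦ
  have hΦr : ∀ g w, Φ (r g w) = matAct (ρ g).1 (Φ w) := hΦ
  have hentry : ∀ g i j, res H hN ((ρ g).1 i j) = (rb g).1 i j := by
    intro g i j
    rw [← hρres g]
    rfl
  -- the Taylor-Wiles parameters
  have hTW : ∀ i, ∃ y ∈ IsLocalRing.maximalIdeal (TrAlg H), y ^ (p ^ ex i) = 0 ∧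
      IsTWy (ρ (st i)).1 y := by
    intro i
    obtain ⟨α0, β0, e1, e2, e3⟩ := ht4 i
    obtain ⟨α, β, f1, f2, f3, f4⟩ := exists_roots hnilm (tA H (ph i))
      (algebraMap k (TrAlg H) (χ (ph i))) (algebraMap k _ α0) (algebraMap k _ β0)
      (by
        rw [mem_maximalIdeal_iff H hN, map_sub, map_add, res_tA, AlgHom.commutes, AlgHom.commutes, e1]
        simp)
      (by
        rw [mem_maximalIdeal_iff H hN, map_sub, map_mul, AlgHom.commutes, AlgHom.commutes,
          AlgHom.commutes, e2]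
        simp)
      (by
        rw [← map_sub]
        exact (IsUnit.mk0 _ (sub_ne_zero.2 e3)).map _)
    have hrα : res H hN α = α0 := by
      have := (mem_maximalIdeal_iff H hN _).1 f3
      rw [map_sub, AlgHom.commutes, sub_eq_zero] at this
      exact this
    have hrβ : res H hN β = β0 := by
      have := (mem_maximalIdeal_iff H hN _).1 f4
      rw [map_sub, AlgHom.commutes, sub_eq_zero] at this
      exact this
    have hαβ0 : α0 * β0 ≠ 0 := by
      rw [← e2]
      exact (χ (ph i)).ne_zero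
    refine twloc_abs p (ρ (ph i)).1 (ρ (st i)).1 α β
      ((isUnit_iff H hN α).2 (by rw [hrα]; exact left_ne_zero_of_mul hαβ0))
      ((isUnit_iff H hN β).2 (by rw [hrβ]; exact right_ne_zero_of_mul hαβ0))
      ((isUnit_iff H hN _).2 (by rw [map_sub, hrα, hrβ]; exact sub_ne_zero.2 e3))
      (by rw [hρtr, f1]) (by rw [hρdet, coe_epsA, f2]) ?_ (s i) ?_ ?_ (ht7 i)
      (by rw [hρdet, coe_epsA, ht2]; simp) (ex i) (m i) (ht5 i) (ht6 i)
    · -- residually trivial
      ext a b
      have h1 : res H hN ((ρ (st i)).1 a b - (1 : Matrix (Fin 2) (Fin 2) (TrAlg H)) a b) = 0 := by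
        rw [map_sub, hentry, ht3]
        by_cases hab : a = b
        · subst hab; simp
        · simp [hab]
      have h3 := (mem_maximalIdeal_iff H hN _).2 h1
      rw [← IsLocalRing.residue_eq_zero_iff, map_sub, sub_eq_zero] at h3
      simp only [RingHom.mapMatrix_apply, Matrix.map_apply]
      rw [h3]
      by_cases hab : a = b
      · subst hab; simp
      · simp [hab]
    · rw [mem_maximalIdeal_iff H hN, map_sub, map_natCast, map_one, ht8, sub_self]
    · -- the tame relation in `M₂(A)`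
      have e : ρ (ph i * st i) = ρ (st i ^ s i * ph i) := by
        apply hρeq
        ext v
        have := LinearMap.congr_fun (ht1 i) v
        show r (ph i * st i) v = r (st i ^ s i * ph i) v
        rw [map_mul, map_mul, map_pow]
        exact this
      have e' := congrArg (fun u : GL (Fin 2) (TrAlg H) => u.1) e
      simpa [map_mul, map_pow] using e'
  choose y hy1 hy2 hy3 using hTW
  -- the strict parameters
  have hQ := fun q => locq_abs (rA H) ρm Φ hΦ' hL (sg q) (hs1 q)
    (by rw [hρm, hρdet, coe_epsA, hs2]; simp)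
  refine ⟨ρ, L, Φ, fun q => (ρm (sg q) - 1) 0 0, fun q => (ρm (sg q) - 1) 0 1,
    fun q => (ρm (sg q) - 1) 1 0, y, hΦ, hρres, hρtr, fun g => by rw [hρdet, coe_epsA], hL,
    fun g g' hgg => hρeq g g' (by ext v; exact LinearMap.congr_fun hgg v), ?_, fun q => (hQ q).2.1,
    ?_, fun i => by rw [← hmax]; exact hy1 i, hy2, ?_, ?_⟩
  · intro q
    have hz : ∀ i j, res H hN ((ρm (sg q) - 1) i j) = 0 := by
      intro i j
      rw [Matrix.sub_apply, map_sub, hρm, hentry, hs3]
      by_cases hij : i = j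
      · subst hij; simp
      · simp [hij]
    exact ⟨RingHom.mem_ker.2 (hz 0 0), RingHom.mem_ker.2 (hz 0 1), RingHom.mem_ker.2 (hz 1 0)⟩
  · -- kernel form at all conjugates
    intro q g hg l ha hb hc'
    obtain ⟨h, e, hfix⟩ := hs4 q g hg
    have h11 := (hQ q).1
    have hd : (ρm (sg q) - 1) 1 1 • l = 0 := by rw [h11, neg_smul, ha, neg_zero]
    -- vectors with entries in `A l`
    have hkill : ∀ v : Fin 2 → L, (∀ j, ∃ z : TrAlg H, v j = z • l) →
        matAct (ρm (sg q)) v = v := by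
      intro v hv
      have : matAct (ρm (sg q) - 1) v = 0 := by
        apply matAct_eq_zero_of_kill
        intro i j j'
        obtain ⟨z, hz⟩ := hv j'
        rw [hz, smul_comm]
        fin_cases i <;> fin_cases j
        · show z • ((ρm (sg q) - 1) 0 0 • l) = 0
          rw [ha, smul_zero]
        · show z • ((ρm (sg q) - 1) 0 1 • l) = 0
          rw [hb, smul_zero]
        · show z • ((ρm (sg q) - 1) 1 0 • l) = 0
          rw [hc', smul_zero]
        · show z • ((ρm (sg q) - 1) 1 1 • l) = 0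
          rw [hd, smul_zero]
      rw [matAct_sub, matAct_one, sub_eq_zero] at this
      exact this
    have key : ∀ v : Fin 2 → L, (∀ j, ∃ z : TrAlg H, v j = z • l) →
        matAct (ρm g) v = e • v := by
      intro v hv
      -- `w = ρ(h⁻¹) v`
      set w := matAct (ρm h⁻¹) v with hw
      have hwl : ∀ j, ∃ z : TrAlg H, w j = z • l := by
        intro j
        obtain ⟨z0, hz0⟩ := hv 0
        obtain ⟨z1, hz1⟩ := hv 1
        refine ⟨ρm h⁻¹ j 0 * z0 + ρm h⁻¹ j 1 * z1, ?_⟩
        rw [hw, matAct_apply, hz0, hz1, smul_smul, smul_smul, add_smul]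
      have hwfix := hkill w hwl
      have h1 : r (sg q) (Φ.symm w) = Φ.symm w := by
        apply Φ.injective
        rw [hΦr, LinearEquiv.apply_symm_apply]
        exact hwfix
      have h3 := congrArg Φ (hfix _ h1)
      rw [hΦr, LinearEquiv.apply_symm_apply] at h3
      have h4 : Φ (e • Φ.symm w) = e • w := by
        rw [← algebraMap_smul (TrAlg H) e, map_smul, LinearEquiv.apply_symm_apply, algebraMap_smul]
      rw [h4] at h3
      -- conjugate back
      have h5 : matAct (ρm g) v = matAct (ρm h) (matAct (ρm (h⁻¹ * g * h)) w) := by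
        rw [hw, ← matAct_mul, ← matAct_mul, ← map_mul, ← map_mul]
        congr 2
        group
      rw [h5]
      change matAct (ρm h) (matAct (ρ (h⁻¹ * g * h)).1 w) = e • v
      rw [h3, ← algebraMap_smul (TrAlg H) e, map_smul, hw, ← matAct_mul, ← map_mul, mul_inv_cancel,
        map_one, matAct_one, algebraMap_smul]
    have k0 := key (vec0 l) (by
      intro j
      fin_cases j
      · exact ⟨1, by simp [vec0]⟩
      · exact ⟨0, by simp [vec0]⟩)
    have k1 := key (vec1 l) (by
      intro j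
      fin_cases j
      · exact ⟨0, by simp [vec1]⟩
      · exact ⟨1, by simp [vec1]⟩)
    have k00 := congrFun k0 0
    have k01 := congrFun k0 1
    have k10 := congrFun k1 0
    have k11 := congrFun k1 1
    rw [matAct_apply] at k00 k01 k10 k11
    simp only [vec0, vec1, Matrix.cons_val_zero, Matrix.cons_val_one, smul_zero, add_zero, zero_add,
      Pi.smul_apply] at k00 k01 k10 k11
    refine ⟨k10, k01, ?_⟩
    rw [sub_smul]
    change ρm g 0 0 • l - ρm g 1 1 • l = 0
    rw [k00, k11, sub_self]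
  · intro i v
    rw [← (hy3 i).fixed_iff (Φ v), ← hΦr]
    exact ⟨fun h => by rw [h], fun h => Φ.injective h⟩
  · intro i v
    obtain ⟨U, hU⟩ := (hy3 i).norm p (ex i)
    refine ⟨matAct U.1 (Φ v), ?_⟩
    rw [← matAct_smul, ← hU, matAct_sum, LinearMap.sum_apply, map_sum]
    refine Finset.sum_congr rfl fun j _ => ?_
    rw [← map_pow, hΦr, map_pow]
    rfl

end Fermat.Agent.S43.Top7
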